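import Fermat.Agent.Ribet.CurveCriterion.TwoSquares
import Mathlib.NumberTheory.LegendreSymbol.JacobiSymbol

/-!
# A class of primes without conditions at the small primes

For `a ≠ -1` a nonsquare there are `M` and a class `b` mod `M` whose primes `p` have `a` as
nonresidue and `q ∤ p - 1` for the odd primes `q ∣ M`, while `a` is no `q`-th power for `q ∤ M`.
-/

set_option autoImplicit false
set_option linter.style.haveILetI false

noncomputable section

namespace FA.ArtinAll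

/-- The classes used for Artin's conjecture. -/
structure GoodClass (a : ℤ) (M b : ℕ) : Prop where
  four_dvd : 4 * a.natAbs ∣ M
  coprime : b.Coprime M
  symbol : jacobiSym a b = -1
  not_one : ∀ q : ℕ, q.Prime → q ≠ 2 → q ∣ M → b % q ≠ 1
  not_pow : ∀ q : ℕ, q.Prime → ¬ q ∣ M → ∀ z : ℤ, z ^ q ≠ a

/-- The class of `b` modulo `M`. -/
def inClass (M b : ℕ) (p : ℕ) : Prop := p % M = b % M

theorem odd_of_coprime {M x : ℕ} (h4 : 4 ∣ M) (hx : x.Coprime M) : Odd x :=
  Nat.coprime_two_right.1 (hx.coprime_dvd_right ((show 2 ∣ 4 by norm_num).trans h4))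

theorem jacobiSym_eq_of_modEq {a : ℤ} {M x y : ℕ} (hM : 4 * a.natAbs ∣ M) (hx : Odd x)
    (hy : Odd y) (h : x ≡ y [MOD M]) : jacobiSym a x = jacobiSym a y := by
  rw [jacobiSym.mod_right a hx, jacobiSym.mod_right a hy]
  exact congrArg (jacobiSym a) (h.of_dvd hM)

variable {a : ℤ} {M b : ℕ}

theorem GoodClass.ne_zero (h : GoodClass a M b) : M ≠ 0 := fun e => by
  have hb : b = 1 := (Nat.coprime_zero_right b).1 (e ▸ h.coprime)
  have := h.symbol
  rw [hb, jacobiSym.one_right] at this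
  norm_num at this

theorem GoodClass.base_ne_zero (h : GoodClass a M b) : a ≠ 0 := fun e =>
  h.ne_zero (Nat.eq_zero_of_zero_dvd (by simpa [e] using h.four_dvd))

theorem GoodClass.odd (h : GoodClass a M b) : Odd b :=
  odd_of_coprime ((dvd_mul_right 4 _).trans h.four_dvd) h.coprime

/-- No rational root either. -/
theorem GoodClass.not_pow_rat (h : GoodClass a M b) {q : ℕ} (hq : q.Prime) (hqM : ¬ q ∣ M)
    (c : ℚ) : c ^ q ≠ (a : ℚ) := fun hc => by
  have hint : IsIntegral ℤ c := IsIntegral.of_pow hq.pos (by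
    rw [hc]; exact isIntegral_algebraMap (R := ℤ) (A := ℚ) (x := a))
  obtain ⟨z, rfl⟩ := IsIntegrallyClosed.isIntegral_iff.1 hint
  rw [algebraMap_int_eq, eq_intCast, ← Int.cast_pow, Int.cast_inj] at hc
  exact h.not_pow q hq hqM z hc

theorem GoodClass.two_le_natAbs (h : GoodClass a M b) : 2 ≤ a.natAbs := by
  have h0 := Int.natAbs_ne_zero.2 h.base_ne_zero
  by_contra hlt
  obtain ⟨q, hqM, hq⟩ := Nat.exists_infinite_primes (M + 3)
  have hodd : Odd q := hq.odd_of_ne_two (by omega)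
  refine h.not_pow q hq (fun e => by have := Nat.le_of_dvd (Nat.pos_of_ne_zero h.ne_zero) e; omega)
    a ?_
  rcases Int.natAbs_eq_iff.1 (show a.natAbs = 1 by omega) with rfl | rfl
  · simp
  · simpa using hodd.neg_one_pow

/-- **The class exists.** -/
theorem exists_goodClass (hsq : ¬ IsSquare a) (h1 : a ≠ -1) :
    ∃ b : ℕ, GoodClass a (4 * a.natAbs.factorial) b := by
  have ha0 : a ≠ 0 := fun e => hsq (e ▸ IsSquare.zero)
  have ha2 : 2 ≤ a.natAbs := by
    by_contra hlt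
    rcases Int.natAbs_eq_iff.1 (show a.natAbs = 1 by omega) with rfl | rfl
    · exact hsq IsSquare.one
    · exact h1 rfl
  obtain ⟨M, hM⟩ : ∃ M, M = 4 * a.natAbs.factorial := ⟨_, rfl⟩
  rw [← hM]
  have hM4 : 4 * a.natAbs ∣ M := hM ▸ Nat.mul_dvd_mul_left 4 (Nat.dvd_factorial (by omega) le_rfl)
  have h4 : 4 ∣ M := (dvd_mul_right 4 _).trans hM4
  have hMpos : 0 < M := hM ▸ Nat.mul_pos (by norm_num) (Nat.factorial_pos _)
  haveI : NeZero M := ⟨hMpos.ne'⟩
  have hpow : ∀ q : ℕ, q.Prime → ¬ q ∣ M → ∀ z : ℤ, z ^ q ≠ a := fun q hq hqM z hz => by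
    have hlt : a.natAbs < q := by
      by_contra hle
      exact hqM (hM ▸ dvd_mul_of_dvd_right (Nat.dvd_factorial hq.pos (not_lt.1 hle)) 4)
    have he : z.natAbs ^ q = a.natAbs := by rw [← hz, Int.natAbs_pow]
    rcases (show z.natAbs ≤ 1 ∨ 2 ≤ z.natAbs by omega) with hz1 | hz2
    · have := Nat.pow_le_pow_left hz1 q
      rw [he, one_pow] at this
      omega
    · have := Nat.pow_le_pow_left hz2 q
      have := Nat.lt_two_pow_self (n := q)
      omega
  by_contra hcon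
  have key : ∀ x : ℕ, x.Coprime M → (∀ q : ℕ, q.Prime → q ≠ 2 → q ∣ M → x % q ≠ 1) →
      jacobiSym a x = 1 := fun x hx hx1 => by
    refine (jacobiSym.eq_one_or_neg_one ?_).resolve_right fun e =>
      hcon ⟨x, hM4, hx, e, hx1, hpow⟩
    rw [Int.gcd_eq_natAbs, Int.natAbs_natCast, Nat.gcd_comm]
    exact hx.coprime_dvd_right ((dvd_mul_left _ 4).trans hM4)
  obtain ⟨w, hw, hw5, hwM, hns, -⟩ :=
    FA.CurveCriterion.exists_prime_not_isSquare hsq hsq M.primeFactors
  haveI : Fact w.Prime := ⟨hw⟩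
  have hwc : w.Coprime M :=
    hw.coprime_iff_not_dvd.2 fun e => hwM (Nat.mem_primeFactors.2 ⟨hw, e, hMpos.ne'⟩)
  have hwJ : jacobiSym a w = -1 := by
    rw [← jacobiSym.legendreSym.to_jacobiSym, legendreSym.eq_neg_one_iff]
    exact hns
  -- a symbol `-1` in a class `1` modulo `3`
  obtain ⟨w', hc', hJ', h3'⟩ : ∃ w' : ℕ, w'.Coprime M ∧ jacobiSym a w' = -1 ∧
      (3 ∣ M → w' % 3 = 1) := by
    by_cases h3 : 3 ∣ M → w % 3 = 1
    · exact ⟨w, hwc, hwJ, h3⟩
    push Not at h3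
    have hw3 : w % 3 = 2 := by
      have : w % 3 ≠ 0 := fun e => by
        have := (Nat.prime_dvd_prime_iff_eq Nat.prime_three hw).1 (Nat.dvd_of_mod_eq_zero e)
        omega
      omega
    have hM1 : (M - 1).Coprime M := (Nat.coprime_self_sub_left hMpos).2 (Nat.coprime_one_left M)
    refine ⟨(M - 1) * w, hM1.mul_left hwc, ?_, fun _ => ?_⟩
    · rw [jacobiSym.mul_right' a (by obtain ⟨c, hc⟩ := h4; omega) hw.ne_zero, hwJ,
        key _ hM1 fun q hq hq2 hqM e => ?_, one_mul]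
      obtain ⟨c, hc⟩ := hqM
      have h := Nat.div_add_mod (M - 1) q
      rw [e] at h
      have h2 : q ∣ q * ((M - 1) / q) + 2 := ⟨c, by omega⟩
      exact hq2 ((Nat.prime_dvd_prime_iff_eq hq Nat.prime_two).1
        ((Nat.dvd_add_right (dvd_mul_right _ _)).1 h2))
    · obtain ⟨c, hc⟩ := h3.1
      rw [Nat.mul_mod, hw3, show (M - 1) % 3 = 2 by omega]
  obtain ⟨r, hr⟩ : ∃ r : ℕ → ℕ, r = fun q =>
      if q = 2 then 1 else if q = 3 then 2 else if w' % q = 2 then 3 else 2 := ⟨_, rfl⟩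
  obtain ⟨u, hu⟩ := Nat.chineseRemainderOfFinset r id M.primeFactors
    (fun q hq => (Nat.prime_of_mem_primeFactors hq).ne_zero)
    (fun p hp q hq hpq => (Nat.coprime_primes (Nat.prime_of_mem_primeFactors hp)
      (Nat.prime_of_mem_primeFactors hq)).2 hpq)
  have hmod : ∀ q : ℕ, q.Prime → q ∣ M →
      u % q ≠ 0 ∧ (q ≠ 2 → u % q ≠ 1 ∧ u % q ≠ w' % q) := fun q hq hqM => by
    have h : u % q = r q % q := hu q (Nat.mem_primeFactors.2 ⟨hq, hqM, hMpos.ne'⟩)
    have h2 := hq.two_le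
    simp only [hr] at h
    rcases eq_or_ne q 2 with rfl | hq2
    · rw [if_pos rfl] at h
      exact ⟨by omega, fun e => absurd rfl e⟩
    rw [if_neg hq2] at h
    rcases eq_or_ne q 3 with rfl | hq3
    · have := h3' hqM
      rw [if_pos rfl] at h
      exact ⟨by omega, fun _ => ⟨by omega, by omega⟩⟩
    have h4' : q ≠ 4 := fun e => by subst e; norm_num at hq
    rw [if_neg hq3, Nat.mod_eq_of_lt (show (if w' % q = 2 then 3 else 2) < q by
      split_ifs <;> omega)] at h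
    split_ifs at h <;> exact ⟨by omega, fun _ => ⟨by omega, by omega⟩⟩
  have huc : u.Coprime M := Nat.coprime_of_dvd fun q hq hqu hqM =>
    (hmod q hq hqM).1 (Nat.mod_eq_zero_of_dvd hqu)
  obtain ⟨v, hv⟩ : ∃ v : ℕ, v * u ≡ w' [MOD M] := by
    refine ⟨((w' : ZMod M) * (u : ZMod M)⁻¹).val, (ZMod.natCast_eq_natCast_iff _ _ _).1 ?_⟩
    rw [Nat.cast_mul, ZMod.natCast_zmod_val, mul_assoc, mul_comm (u : ZMod M)⁻¹,
      ZMod.coe_mul_inv_eq_one u huc, mul_one]
  have hvuc : (v * u).Coprime M := hv.gcd_eq.trans hc'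
  have hvc : v.Coprime M := hvuc.coprime_mul_right
  have hJ : jacobiSym a (v * u) = jacobiSym a w' :=
    jacobiSym_eq_of_modEq hM4 (odd_of_coprime h4 hvuc) (odd_of_coprime h4 hc') hv
  rw [jacobiSym.mul_right' a (odd_of_coprime h4 hvc).pos.ne' (odd_of_coprime h4 huc).pos.ne', hJ',
    key u huc fun q hq hq2 hqM => ((hmod q hq hqM).2 hq2).1,
    key v hvc fun q hq hq2 hqM e => ((hmod q hq hqM).2 hq2).2 ?_] at hJ
  · norm_num at hJ
  · have h := hv.of_dvd hqM
    rw [Nat.ModEq, Nat.mul_mod, e, one_mul, Nat.mod_mod] at h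
    exact h

end FA.ArtinAll

end
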