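import Fermat.Agent.ArtinHooley.Kummer
import Fermat.Agent.ArtinAllBases.BaseClass

/-!
# The fields `ℚ(ζ_m, a ^ (1/k))`

For `k ∣ m` they are Galois; when `a` has no `q`-th root in `ℚ(ζ_m)` for `q ∣ k` their group is
all of `(ℤ/m)ˣ ⋉ ℤ/k`.
-/

set_option autoImplicit false
set_option linter.style.haveILetI false

noncomputable section

open Polynomial NumberField IntermediateField
open scoped Classical

namespace FA.ArtinAll

/-- The splitting field of `(X ^ m - 1) (X ^ k - a)`. -/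
abbrev MixedField (a : ℤ) (m k : ℕ) : Type :=
  ((X ^ m - 1) * (X ^ k - C (a : ℚ)) : ℚ[X]).SplittingField

instance mixedField_numberField (a : ℤ) (m k : ℕ) : NumberField (MixedField a m k) where

instance mixedField_splitting (a : ℤ) (m k : ℕ) :
    IsSplittingField ℚ (MixedField a m k) ((X ^ m - 1) * (X ^ k - C (a : ℚ))) := by
  convert Polynomial.IsSplittingField.splittingField ((X ^ m - 1) * (X ^ k - C (a : ℚ))) using 2
  exact Subsingleton.elim _ _

instance mixedField_isGalois (a : ℤ) (m k : ℕ) : IsGalois ℚ (MixedField a m k) :=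
  haveI := Normal.of_isSplittingField (E := MixedField a m k)
    ((X ^ m - 1) * (X ^ k - C (a : ℚ)))
  ⟨⟩

variable {a : ℤ} (ha : a ≠ 0) {m k : ℕ} [NeZero m] [NeZero k] (hkm : k ∣ m)
  {L : Type} [Field L] [NumberField L]

include ha hkm in
/-- The generators. -/
theorem exists_mixed_gens [IsSplittingField ℚ L ((X ^ m - 1) * (X ^ k - C (a : ℚ)))] :
    ∃ ζ α : L,
    IsPrimitiveRoot ζ m ∧ α ^ k = (a : L) ∧
      IntermediateField.adjoin ℚ {ζ, α} = ⊤ := by
  obtain ⟨f, hf⟩ : ∃ f : ℚ[X], f = (X ^ m - 1) * (X ^ k - C (a : ℚ)) := ⟨_, rfl⟩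
  have hm0 : (X ^ m - 1 : ℚ[X]) ≠ 0 := by
    simpa using X_pow_sub_C_ne_zero (R := ℚ) (NeZero.pos m) 1
  have hf0 : f ≠ 0 := hf ▸ mul_ne_zero hm0 (X_pow_sub_C_ne_zero (NeZero.pos k) _)
  have hsplit : (f.map (algebraMap ℚ (L))).Splits := by
    rw [hf]
    exact IsSplittingField.splits (L) ((X ^ m - 1) * (X ^ k - C (a : ℚ)))
  have hmap : f.map (algebraMap ℚ (L)) ≠ 0 :=
    (Polynomial.map_ne_zero_iff (algebraMap ℚ (L)).injective).2 hf0
  have hz : ((cyclotomic m ℚ).map (algebraMap ℚ (L))).Splits :=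
    hsplit.of_dvd hmap (Polynomial.map_dvd _ (by
      rw [hf]
      exact (cyclotomic.dvd_X_pow_sub_one m ℚ).trans (dvd_mul_right _ _)))
  obtain ⟨ζ, hζ0⟩ := hz.exists_eval_eq_zero (by
    rw [degree_map, degree_cyclotomic, Ne, Nat.cast_eq_zero]
    exact (Nat.totient_pos.2 (NeZero.pos m)).ne')
  rw [map_cyclotomic] at hζ0
  have hζ : IsPrimitiveRoot ζ m := isRoot_cyclotomic_iff.1 hζ0
  have hk : ((X ^ k - C (a : ℚ)).map (algebraMap ℚ (L))).Splits :=
    hsplit.of_dvd hmap (Polynomial.map_dvd _ (by rw [hf]; exact dvd_mul_left _ _))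
  obtain ⟨α, hα0⟩ := hk.exists_eval_eq_zero (by
    rw [degree_map, degree_X_pow_sub_C (NeZero.pos k), Ne, Nat.cast_eq_zero]
    exact NeZero.ne k)
  have hα : α ^ k = (a : L) := by
    simpa [eval_map, sub_eq_zero] using hα0
  have ha0 : (a : L) ≠ 0 := Int.cast_ne_zero.2 ha
  have hα0' : α ≠ 0 := fun e => ha0 (by rw [← hα, e, zero_pow (NeZero.ne k)])
  refine ⟨ζ, α, hζ, hα, IntermediateField.toSubalgebra_injective ?_⟩
  rw [IntermediateField.top_toSubalgebra, eq_top_iff,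
    ← IsSplittingField.adjoin_rootSet (L) ((X ^ m - 1) * (X ^ k - C (a : ℚ))),
    Algebra.adjoin_le_iff]
  intro r hr
  obtain ⟨-, hr⟩ := mem_rootSet.1 hr
  rw [map_mul, mul_eq_zero, map_sub, map_sub, map_pow, map_pow, aeval_X, map_one, aeval_C,
    sub_eq_zero, sub_eq_zero, map_intCast (algebraMap ℚ (L)) a] at hr
  rcases hr with hr | hr
  · obtain ⟨i, -, hi⟩ := hζ.eq_pow_of_pow_eq_one (ξ := r) hr
    rw [← hi]
    exact pow_mem (IntermediateField.subset_adjoin ℚ _ (by simp)) i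
  · have hrα : (r / α) ^ k = 1 := by rw [div_pow, hr, hα, div_self ha0]
    obtain ⟨i, -, hi⟩ := hζ.eq_pow_of_pow_eq_one (ξ := r / α)
      (orderOf_dvd_iff_pow_eq_one.1 ((orderOf_dvd_of_pow_eq_one hrα).trans hkm))
    rw [show r = ζ ^ i * α by rw [hi, div_mul_cancel₀ _ hα0']]
    exact mul_mem (pow_mem (IntermediateField.subset_adjoin ℚ _ (by simp)) i)
      (IntermediateField.subset_adjoin ℚ _ (by simp))

omit [NeZero m] [NeZero k] in
/-- An automorphism is determined on the generators. -/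
theorem aut_eq_of_gens {ζ α : L}
    (htop : IntermediateField.adjoin ℚ {ζ, α} = ⊤)
    {σ τ : L ≃ₐ[ℚ] L} (h1 : σ ζ = τ ζ) (h2 : σ α = τ α) :
    σ = τ := AlgEquiv.ext fun y => by
  have hy : y ∈ IntermediateField.adjoin ℚ {ζ, α} := htop ▸ IntermediateField.mem_top
  induction hy using IntermediateField.adjoin_induction with
  | mem r hr =>
    rcases hr with rfl | hr
    · exact h1
    · rw [Set.mem_singleton_iff] at hr
      rw [hr, h2]
  | algebraMap q => rw [σ.commutes, τ.commutes]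
  | add r s _ _ e1 e2 => rw [map_add, e1, e2, map_add]
  | inv r _ e1 => rw [map_inv₀, e1, map_inv₀]
  | mul r s _ _ e1 e2 => rw [map_mul, e1, e2, map_mul]

/-- The automorphisms `ζ ↦ ζ ^ c` fixing `α`. -/
def fixClass {L : Type} [Field L] [NumberField L] (ζ α : L) (c : ℕ) :
    Set (L ≃ₐ[ℚ] L) :=
  {σ | σ ζ = ζ ^ c ∧ σ α = α}

include ha hkm in
/-- The class has one element and is stable under conjugation. -/
theorem fixClass_facts [IsGalois ℚ L] {ζ α : L} (hζ : IsPrimitiveRoot ζ m)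
    (hα : α ^ k = (a : L)) (htop : IntermediateField.adjoin ℚ {ζ, α} = ⊤)
    (hdeg : Module.finrank ℚ (L) = k * m.totient) {c : ℕ} (hc : c.Coprime m)
    (hck : c ≡ 1 [MOD k]) :
    Nat.card (fixClass ζ α c) = 1 ∧ ∀ g ∈ fixClass ζ α c, ∀ x, x * g * x⁻¹ ∈ fixClass ζ α c := by
  obtain ⟨g, hg⟩ : ∃ g : (L ≃ₐ[ℚ] L) →
      L × L, g = fun σ => (σ ζ, σ α) := ⟨_, rfl⟩
  have hginj : Function.Injective g := fun σ τ e => by
    simp only [hg, Prod.mk.injEq] at e
    exact aut_eq_of_gens htop e.1 e.2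
  have himage : (Finset.univ.image g) =
      primitiveRoots m (L) ×ˢ (nthRoots k (a : L)).toFinset := by
    refine Finset.eq_of_subset_of_card_le (fun y hy => ?_) ?_
    · obtain ⟨σ, -, rfl⟩ := Finset.mem_image.1 hy
      simp only [hg, Finset.mem_product, Multiset.mem_toFinset, mem_nthRoots (NeZero.pos k),
        mem_primitiveRoots (NeZero.pos m)]
      exact ⟨hζ.map_of_injective σ.injective, by rw [← map_pow, hα, map_intCast σ a]⟩
    · rw [Finset.card_product, hζ.card_primitiveRoots, Finset.card_image_of_injective _ hginj,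
        Finset.card_univ, ← Nat.card_eq_fintype_card, IsGalois.card_aut_eq_finrank, hdeg,
        mul_comm k]
      exact Nat.mul_le_mul_left _ ((Multiset.toFinset_card_le _).trans (card_nthRoots k _))
  obtain ⟨σ, -, hσ⟩ : ∃ σ, σ ∈ Finset.univ ∧ g σ = (ζ ^ c, α) := by
    rw [← Finset.mem_image, himage, Finset.mem_product, Multiset.mem_toFinset,
      mem_nthRoots (NeZero.pos k), mem_primitiveRoots (NeZero.pos m)]
    exact ⟨hζ.pow_of_coprime c hc, hα⟩
  simp only [hg, Prod.mk.injEq] at hσ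
  refine ⟨?_, fun τ hτ x => ?_⟩
  · rw [Nat.card_eq_one_iff_unique]
    exact ⟨⟨fun u v => Subtype.ext (aut_eq_of_gens htop (u.2.1.trans v.2.1.symm)
      (u.2.2.trans v.2.2.symm))⟩, ⟨⟨σ, hσ⟩⟩⟩
  have hα0 : α ≠ 0 := fun e => Int.cast_ne_zero.2 ha (show (a : L) = 0 by
    rw [← hα, e, zero_pow (NeZero.ne k)])
  have hinv : ∀ y, x (x⁻¹ y) = y := fun y => x.apply_symm_apply y
  have hη : (x⁻¹ α / α) ^ k = 1 := by
    rw [div_pow, ← map_pow, hα, map_intCast x⁻¹ a, div_self (Int.cast_ne_zero.2 ha)]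
  have hτη : ∀ η : L, η ^ m = 1 → τ η = η ^ c := fun η hη => by
    obtain ⟨i, -, hi⟩ := hζ.eq_pow_of_pow_eq_one (ξ := η) hη
    rw [← hi, map_pow, hτ.1, ← pow_mul, ← pow_mul, mul_comm c i]
  refine ⟨?_, ?_⟩
  · rw [AlgEquiv.mul_apply, AlgEquiv.mul_apply,
      hτη _ (by rw [← map_pow, hζ.pow_eq_one, map_one]), map_pow, hinv]
  · rw [AlgEquiv.mul_apply, AlgEquiv.mul_apply, show x⁻¹ α = x⁻¹ α / α * α by
      rw [div_mul_cancel₀ _ hα0], map_mul τ, hτ.2,
      hτη _ (orderOf_dvd_iff_pow_eq_one.1 ((orderOf_dvd_of_pow_eq_one hη).trans hkm)),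
      pow_eq_pow_mod c hη, hck, ← pow_eq_pow_mod 1 hη, pow_one, div_mul_cancel₀ _ hα0, hinv]

omit [NeZero k] in
/-- The degree and the discriminant for a good class. -/
theorem mixed_finrank_and_discr {M b : ℕ} (h : GoodClass a M b) [NeZero k] (hk : Squarefree k)
    (hkm : k ∣ m) (hkM : k.Coprime M) {ζ α : L} (hζ : IsPrimitiveRoot ζ m)
    (hα : α ^ k = (a : L)) (htop : IntermediateField.adjoin ℚ {ζ, α} = ⊤) :
    Module.finrank ℚ (L) = k * m.totient ∧
      Real.log (((discr (L)).natAbs : ℕ) : ℝ) ≤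
        (k * m.totient : ℕ) * (2 * Real.log m + Real.log |(a : ℝ)|) ∧
      ∀ p : ℕ, p.Prime → p ∣ (discr (L)).natAbs → p ∣ m * a.natAbs := by
  obtain ⟨F, hF⟩ : ∃ F : IntermediateField ℚ (L),
      F = IntermediateField.adjoin ℚ {ζ} := ⟨_, rfl⟩
  haveI : IsCyclotomicExtension {m} ℚ F :=
    hF ▸ hζ.intermediateField_adjoin_isCyclotomicExtension ℚ
  have hpow : ∀ q ∈ k.primeFactors, ∀ y : F, y ^ q ≠ (a : F) := fun q hq y => by
    obtain ⟨hqp, hqk, -⟩ := Nat.mem_primeFactors.1 hq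
    have hqM : ¬ q ∣ M := fun e => hqp.ne_one (Nat.eq_one_of_dvd_coprimes hkM hqk e)
    exact FA.ArtinHooley.not_pow_of_odd (k := m) h.base_ne_zero hqp (fun e => hqM (e ▸
      ((show 2 ∣ 4 by norm_num).trans ((dvd_mul_right 4 _).trans h.four_dvd))))
      (h.not_pow_rat hqp hqM) y
  exact FA.ArtinHooley.finrank_and_discr_of_gens h.base_ne_zero hk hkm hζ hα htop (hF ▸ hpow)

end FA.ArtinAll

end
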