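import Fermat.Agent.ArtinHooley.Sieve
import Fermat.Agent.ArtinAllBases.Field
import Fermat.Agent.ChebotarevGRH.Main
import Fermat.Agent.Root.SummaryFrobenius

/-!
# The split primes of a class

Away from `m a` the Frobenius element at `p` is `ζ ↦ ζ ^ c`, `α ↦ α` iff `p ≡ c (mod m)` and `a` is
a `k`-th power residue; Chebotarev on the hypothesis counts these `p`.
-/

set_option autoImplicit false
set_option linter.style.haveILetI false

noncomputable section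

open Polynomial NumberField IsDedekindDomain Module
open FA.ArtinHooley (FieldRH fieldSize RootCond condCount logInt)
open FA.NaturalChebotarev (countIn someFrobSet)
open FA.Hecke (primesLE mem_primesLE)
open scoped Classical

namespace FA.ArtinAll

variable {a : ℤ} {m k : ℕ} [NeZero m] [NeZero k] {L : Type} [Field L] [NumberField L]

/-- **The criterion.** -/
theorem mem_fixClass_iff (hkm : k ∣ m) {ζ α : L} (hζ : IsPrimitiveRoot ζ m)
    (hα : α ^ k = (a : L)) {p : ℕ} (hp : p.Prime) (hpm : ¬ p ∣ m) (hpa : ¬ (p : ℤ) ∣ a) {c : ℕ}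
    (hck : c ≡ 1 [MOD k]) {Q : Ideal (𝓞 L)} [Q.IsMaximal] (hpQ : (p : 𝓞 L) ∈ Q) {τ : L ≃ₐ[ℚ] L}
    (hτ : IsArithFrobAt (𝓞 ℚ) τ Q) (hcard : Nat.card (𝓞 ℚ ⧸ Q.under (𝓞 ℚ)) = p) :
    τ ∈ fixClass ζ α c ↔ p ≡ c [MOD m] ∧ RootCond a k p := by
  haveI : Fact p.Prime := ⟨hp⟩
  haveI : Q.IsPrime := Ideal.IsMaximal.isPrime ‹_›
  obtain ⟨z, hz⟩ : ∃ z : 𝓞 L, (z : L) = ζ := ⟨hζ.toInteger, rfl⟩
  obtain ⟨x, hx⟩ : ∃ x : 𝓞 L, (x : L) = α := ⟨⟨α, IsIntegral.of_pow (NeZero.pos k) (by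
    rw [hα]; exact isIntegral_algebraMap (R := ℤ) (A := L) (x := a))⟩, rfl⟩
  have hxk : x ^ k = (a : 𝓞 L) := RingOfIntegers.ext (by
    simp only [map_pow, map_intCast]
    exact (congrArg (· ^ k) hx).trans hα)
  have hzp : IsPrimitiveRoot z m := by
    refine IsPrimitiveRoot.of_map_of_injective (f := algebraMap _ L) ?_
      RingOfIntegers.coe_injective
    rw [show algebraMap (𝓞 L) L z = ζ from hz]
    exact hζ
  have hmQ : (m : 𝓞 L) ∉ Q := fun hmem => ‹Q.IsPrime›.ne_top (by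
    obtain ⟨s, t, hst⟩ := (hp.coprime_iff_not_dvd.2 hpm).cast (R := 𝓞 L)
    rw [Ideal.eq_top_iff_one, ← hst]
    exact Q.add_mem (Q.mul_mem_left _ hpQ) (Q.mul_mem_left _ hmem))
  have hτz : τ ζ = ζ ^ p := by
    have h1 : τ • z = z ^ Nat.card (𝓞 ℚ ⧸ Q.under (𝓞 ℚ)) :=
      hτ.apply_of_pow_eq_one hzp.pow_eq_one hmQ
    have h2 := congrArg (algebraMap (𝓞 L) L) h1
    rw [map_pow, hcard] at h2
    rw [← hz]
    exact h2
  have hζc : τ ζ = ζ ^ c ↔ p ≡ c [MOD m] := by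
    rw [hτz, (hζ.isOfFinOrder (NeZero.ne m)).pow_eq_pow_iff_modEq, ← hζ.eq_orderOf]
  letI := Ideal.Quotient.field Q
  haveI : CharP (𝓞 L ⧸ Q) p := (CharP.charP_iff_prime_eq_zero hp).2 (by
    rw [← map_natCast (Ideal.Quotient.mk Q), Ideal.Quotient.eq_zero_iff_mem]
    exact hpQ)
  haveI : NeZero ((m : ℕ) : 𝓞 L ⧸ Q) := ⟨fun e => hpm ((CharP.cast_eq_zero_iff _ p m).1 e)⟩
  obtain ⟨π, hπ⟩ : ∃ π : 𝓞 L →+* 𝓞 L ⧸ Q, π = Ideal.Quotient.mk Q := ⟨_, rfl⟩
  have hzQ : IsPrimitiveRoot (π z) m := by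
    rw [← isRoot_cyclotomic_iff]
    have := (hzp.isRoot_cyclotomic (NeZero.pos m)).map (f := π)
    rwa [map_cyclotomic] at this
  have haQ : ((a : ℤ) : 𝓞 L ⧸ Q) ≠ 0 := fun e => hpa ((CharP.intCast_eq_zero_iff _ p a).1 e)
  have hxQ : π x ≠ 0 := fun e => haQ (by
    rw [← map_intCast π a, ← hxk, map_pow, e, zero_pow (NeZero.ne k)])
  have ha0 : a ≠ 0 := fun e => hpa (e ▸ dvd_zero _)
  have hα0 : α ≠ 0 := fun e => Int.cast_ne_zero.2 ha0 (show (a : L) = 0 by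
    rw [← hα, e, zero_pow (NeZero.ne k)])
  have hαc : p ≡ 1 [MOD k] → (τ α = α ↔ RootCond a k p) := fun h1 => by
    have hk : k ∣ p - 1 := (Nat.modEq_iff_dvd' hp.one_le).1 h1.symm
    have hη : (τ α / α) ^ k = 1 := by
      rw [div_pow, ← map_pow, hα, map_intCast τ a, div_self (Int.cast_ne_zero.2 ha0)]
    obtain ⟨j, hj, hzj⟩ := hζ.eq_pow_of_pow_eq_one (ξ := τ α / α)
      (orderOf_dvd_iff_pow_eq_one.1 ((orderOf_dvd_of_pow_eq_one hη).trans hkm))
    have hxz : τ • x = z ^ j * x := RingOfIntegers.coe_injective (by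
      rw [map_mul, map_pow]
      show τ (x : L) = (z : L) ^ j * (x : L)
      rw [hz, hzj, hx, div_mul_cancel₀ _ hα0])
    have hπx : π z ^ j = (a : 𝓞 L ⧸ Q) ^ ((p - 1) / k) := by
      have h2 : π (τ • x) = π x ^ p := by
        rw [hπ, ← map_pow, Ideal.Quotient.eq, ← hcard]
        exact hτ x
      have hp1 : π x ^ p = (a : 𝓞 L ⧸ Q) ^ ((p - 1) / k) * π x := by
        rw [← map_intCast π a, ← hxk, map_pow, ← pow_mul, Nat.mul_div_cancel' hk, ← pow_succ,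
          Nat.sub_add_cancel hp.one_le]
      rw [hxz, map_mul, map_pow, hp1] at h2
      exact mul_right_cancel₀ hxQ h2
    have hfix : τ α = α ↔ j = 0 := by
      rw [← div_eq_one_iff_eq hα0, ← hzj, hζ.pow_eq_one_iff_dvd]
      exact ⟨fun h => Nat.eq_zero_of_dvd_of_lt h hj, fun h => h ▸ dvd_zero m⟩
    rw [hfix, RootCond, and_iff_right hk, ← CharP.intCast_eq_zero_iff (𝓞 L ⧸ Q) p, Int.cast_sub,
      Int.cast_pow, Int.cast_one, sub_eq_zero, ← hπx, hzQ.pow_eq_one_iff_dvd]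
    exact ⟨fun h => h ▸ dvd_zero m, fun h => Nat.eq_zero_of_dvd_of_lt h hj⟩
  constructor
  · rintro ⟨h1, h2⟩
    have hpc := hζc.1 h1
    exact ⟨hpc, (hαc ((hpc.of_dvd hkm).trans hck)).1 h2⟩
  · rintro ⟨hpc, hr⟩
    exact ⟨hζc.2 hpc, (hαc ((hpc.of_dvd hkm).trans hck)).2 hr⟩

theorem absNorm_span_nat (p : ℕ) : Ideal.absNorm (Ideal.span {(p : 𝓞 ℚ)}) = p := by
  rw [Ideal.absNorm_span_singleton, ← map_natCast (algebraMap ℤ (𝓞 ℚ)), Algebra.norm_algebraMap,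
    NumberField.RingOfIntegers.rank, Module.finrank_self, pow_one, Int.natAbs_natCast]

theorem asIdeal_eq_span {p : ℕ} (hp : p.Prime) (v : HeightOneSpectrum (𝓞 ℚ))
    (h : (p : 𝓞 ℚ) ∈ v.asIdeal) : v.asIdeal = Ideal.span {(p : 𝓞 ℚ)} := by
  refine (Ideal.IsMaximal.eq_of_le ?_ v.isPrime.ne_top
    ((Ideal.span_singleton_le_iff_mem _).2 h)).symm
  refine (Ideal.isPrime_of_irreducible_absNorm ((absNorm_span_nat p).symm ▸ hp)).isMaximal ?_
  rw [Ne, Ideal.span_singleton_eq_bot, Nat.cast_eq_zero]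
  exact hp.ne_zero

variable [IsGalois ℚ L]

/-- The primes of the class are those meeting the conditions, up to the divisors of `m a`. -/
theorem abs_countIn_sub_le (ha : a ≠ 0) (hkm : k ∣ m) {ζ α : L} (hζ : IsPrimitiveRoot ζ m)
    (hα : α ^ k = (a : L)) {c : ℕ} (hck : c ≡ 1 [MOD k]) (N : ℕ) :
    |(countIn (someFrobSet ℚ L (fixClass ζ α c)) (N : ℝ) : ℝ) -
      (condCount a (fun p => p ≡ c [MOD m]) k N : ℝ)| ≤
        2 * (Real.log m + Real.log |(a : ℝ)|) := by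
  obtain ⟨D, hD⟩ : ∃ D, D = (m * a.natAbs).primeFactors := ⟨_, rfl⟩
  have hm0 : m * a.natAbs ≠ 0 := Nat.mul_ne_zero (NeZero.ne m) (Int.natAbs_ne_zero.2 ha)
  obtain ⟨V, hV⟩ : ∃ V, V = (primesLE ℚ N).filter (· ∈ someFrobSet ℚ L (fixClass ζ α c)) :=
    ⟨_, rfl⟩
  obtain ⟨G, hG⟩ : ∃ G, G = (Finset.Icc 1 N).filter
      fun p => p.Prime ∧ RootCond a k p ∧ p ≡ c [MOD m] := ⟨_, rfl⟩
  have hGc : condCount a (fun p => p ≡ c [MOD m]) k N = G.card := by
    rw [condCount, hG]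
    refine congrArg Finset.card ?_
    ext p
    simp only [Finset.mem_filter]
  rw [countIn, Nat.floor_natCast, ← hV, hGc]
  have hmem : ∀ v : HeightOneSpectrum (𝓞 ℚ), ∃ p : ℕ, p.Prime ∧
      v.asIdeal = Ideal.span {(p : 𝓞 ℚ)} ∧ Ideal.absNorm v.asIdeal = p := fun v => by
    obtain ⟨p, hp, hpv⟩ := FA.Ext.exists_rat_prime_mem v
    exact ⟨p, hp, asIdeal_eq_span hp v hpv, by rw [asIdeal_eq_span hp v hpv, absNorm_span_nat]⟩
  have hinj : Function.Injective fun v : HeightOneSpectrum (𝓞 ℚ) => Ideal.absNorm v.asIdeal :=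
    fun v w e => by
      obtain ⟨p, -, hv, hvn⟩ := hmem v
      obtain ⟨q, -, hw, hwn⟩ := hmem w
      exact HeightOneSpectrum.ext (by rw [hv, hw, show p = q from hvn.symm.trans (e.trans hwn)])
  have hiff : ∀ (p : ℕ), p.Prime → p ∉ D → ∀ v : HeightOneSpectrum (𝓞 ℚ),
      Ideal.absNorm v.asIdeal = p →
        (v ∈ someFrobSet ℚ L (fixClass ζ α c) ↔ RootCond a k p ∧ p ≡ c [MOD m]) :=
    fun p hp hpD v hvn => by
      have hpm : ¬ p ∣ m := fun e =>
        hpD (hD ▸ Nat.mem_primeFactors.2 ⟨hp, dvd_mul_of_dvd_left e _, hm0⟩)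
      have hpa : ¬ (p : ℤ) ∣ a := fun e =>
        hpD (hD ▸ Nat.mem_primeFactors.2 ⟨hp, dvd_mul_of_dvd_right (Int.natCast_dvd.1 e) _, hm0⟩)
      have hpv : (p : 𝓞 ℚ) ∈ v.asIdeal := hvn ▸ Ideal.absNorm_mem v.asIdeal
      have hiffQ : ∀ Q : Ideal (𝓞 L), Q.IsMaximal → Q.under (𝓞 ℚ) = v.asIdeal →
          ∀ τ : L ≃ₐ[ℚ] L, IsArithFrobAt (𝓞 ℚ) τ Q →
            (τ ∈ fixClass ζ α c ↔ RootCond a k p ∧ p ≡ c [MOD m]) := fun Q hQ hQv τ hτ => by
        haveI := hQ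
        rw [← hQv, Ideal.mem_comap, map_natCast] at hpv
        refine (mem_fixClass_iff hkm hζ hα hp hpm hpa hck hpv hτ ?_).trans and_comm
        rw [hQv, ← hvn, Ideal.absNorm_apply, Submodule.cardQuot_apply]
      constructor
      · rintro ⟨Q, hQ, hQv, τ, hτC, hτ⟩
        exact (hiffQ Q hQ hQv τ hτ).1 hτC
      · intro h
        obtain ⟨Q, hQ, hQv, τ, hτ⟩ := FA.Chebotarev.exists_isArithFrobAt (L := L) v
        exact ⟨Q, hQ, hQv, τ, (hiffQ Q hQ hQv τ hτ).2 h, hτ⟩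
  have h1 : V.card ≤ G.card + D.card := by
    rw [← Finset.card_image_of_injective V hinj]
    refine (Finset.card_le_card fun p hp => ?_).trans (Finset.card_union_le G D)
    obtain ⟨v, hv, rfl⟩ := Finset.mem_image.1 hp
    obtain ⟨p, hpp, -, hvn⟩ := hmem v
    rw [hV, Finset.mem_filter, mem_primesLE, hvn] at hv
    show Ideal.absNorm v.asIdeal ∈ G ∪ D
    rw [hvn, Finset.mem_union]
    by_cases hpD : p ∈ D
    · exact Or.inr hpD
    refine Or.inl (hG ▸ Finset.mem_filter.2 ⟨Finset.mem_Icc.2 ⟨hpp.one_le, hv.1⟩, hpp, ?_⟩)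
    exact (hiff p hpp hpD v hvn).1 hv.2
  have h2 : G.card ≤ V.card + D.card := by
    rw [← Finset.card_image_of_injective V hinj]
    refine (Finset.card_le_card fun p hp => ?_).trans (Finset.card_union_le _ D)
    rw [hG, Finset.mem_filter, Finset.mem_Icc] at hp
    rw [Finset.mem_union]
    by_cases hpD : p ∈ D
    · exact Or.inr hpD
    have hne : Ideal.span {(p : 𝓞 ℚ)} ≠ ⊥ := by
      rw [Ne, Ideal.span_singleton_eq_bot, Nat.cast_eq_zero]
      exact hp.2.1.ne_zero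
    obtain ⟨v, hv⟩ : ∃ v : HeightOneSpectrum (𝓞 ℚ), v.asIdeal = Ideal.span {(p : 𝓞 ℚ)} :=
      ⟨⟨_, Ideal.isPrime_of_irreducible_absNorm ((absNorm_span_nat p).symm ▸ hp.2.1), hne⟩, rfl⟩
    have hvn : Ideal.absNorm v.asIdeal = p := hv.symm ▸ absNorm_span_nat p
    refine Or.inl (Finset.mem_image.2 ⟨v, ?_, hvn⟩)
    rw [hV, Finset.mem_filter, mem_primesLE]
    exact ⟨hvn.trans_le hp.1.2, (hiff p hp.2.1 hpD v hvn).2 hp.2.2⟩
  have hDc : (D.card : ℝ) ≤ 2 * (Real.log m + Real.log |(a : ℝ)|) := by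
    have hpow : 2 ^ D.card ≤ m * a.natAbs := by
      refine le_trans ?_ (Nat.le_of_dvd (Nat.pos_of_ne_zero hm0) (Nat.prod_primeFactors_dvd _))
      rw [hD]
      exact Finset.pow_card_le_prod _ _ _ fun p hp =>
        (Nat.prime_of_mem_primeFactors hp).two_le
    have hlog := Real.log_le_log (by positivity)
      (show (2 : ℝ) ^ D.card ≤ ((m * a.natAbs : ℕ) : ℝ) by exact_mod_cast hpow)
    rw [Real.log_pow, Nat.cast_mul, Real.log_mul (Nat.cast_ne_zero.2 (NeZero.ne m))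
      (Nat.cast_ne_zero.2 (Int.natAbs_ne_zero.2 ha)),
      show ((a.natAbs : ℕ) : ℝ) = |(a : ℝ)| by rw [Nat.cast_natAbs, Int.cast_abs]] at hlog
    nlinarith [Real.log_two_gt_d9, Nat.cast_nonneg (α := ℝ) D.card]
  have h1' : (V.card : ℝ) ≤ (G.card + D.card : ℕ) := Nat.cast_le.2 h1
  have h2' : (G.card : ℝ) ≤ (V.card + D.card : ℕ) := Nat.cast_le.2 h2
  push_cast at h1' h2'
  rw [abs_le]
  constructor <;> linarith

/-- The hypothesis: RH for the fields `ℚ(ζ_m, a ^ (1/k))`. -/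
def MixedRH (a : ℤ) : Prop := ∀ m k : ℕ, Squarefree k → k ∣ m → FieldRH (MixedField a m k)

omit [NeZero m] [NeZero k] in
/-- **The count on the hypothesis.** -/
theorem exists_condCount_le {M b : ℕ} (h : GoodClass a M b) (hRH : MixedRH a) :
    ∃ B : ℝ, 0 ≤ B ∧ ∀ k : ℕ, Squarefree k → k.Coprime M → ∀ N : ℕ, 2 ≤ N →
      |(condCount a (inClass M b) k N : ℝ) -
        1 / (M.totient : ℝ) * logInt N / ((k * k.totient : ℕ) : ℝ)| ≤
          B * (1 + Real.log k) * (√N * Real.log N ^ 4) := by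
  obtain ⟨A, hA, hcount⟩ := FA.ChebGRH.exists_countF_le.{0, 0}
  have hla : 0 ≤ Real.log |(a : ℝ)| := by
    rw [← Int.cast_abs]
    exact Real.log_nonneg (by exact_mod_cast Int.one_le_abs h.base_ne_zero)
  have hlM : 0 ≤ Real.log M := Real.log_natCast_nonneg M
  obtain ⟨B, hB⟩ : ∃ B, B = 1 + Real.log M + Real.log |(a : ℝ)| := ⟨_, rfl⟩
  refine ⟨(2 * A + 16) * B, by rw [hB]; positivity, fun k hk hkM N hN => ?_⟩
  haveI : NeZero k := ⟨hk.ne_zero⟩
  haveI : NeZero M := ⟨h.ne_zero⟩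
  obtain ⟨c, hcM, hck⟩ := Nat.chineseRemainder hkM.symm b 1
  have hkm : k ∣ M * k := dvd_mul_left k M
  obtain ⟨ζ, α, hζ, hα, htop⟩ :=
    exists_mixed_gens (L := MixedField a (M * k) k) h.base_ne_zero hkm
  obtain ⟨hdeg, hdisc, -⟩ := mixed_finrank_and_discr h hk hkm hkM hζ hα htop
  have hcc : c.Coprime (M * k) := Nat.Coprime.mul_right (hcM.gcd_eq.trans h.coprime)
    (hck.gcd_eq.trans (Nat.coprime_one_left k))
  obtain ⟨hone, hconj⟩ := fixClass_facts h.base_ne_zero hkm hζ hα htop hdeg hcc hck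
  have hN2 : (2 : ℝ) ≤ N := by exact_mod_cast hN
  have h1 := hcount (hRH (M * k) k hk hkm) (fixClass ζ α c) hconj N hN2
  have h2 := abs_countIn_sub_le h.base_ne_zero hkm hζ hα hck N
  have he : condCount a (fun p => p ≡ c [MOD M * k]) k N =
      condCount a (inClass M b) k N := by
    rw [condCount, condCount]
    refine congrArg Finset.card ?_
    ext p
    simp only [Finset.mem_filter]
    refine and_congr_right fun _ => and_congr_right fun hp => and_congr_right fun hr => ?_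
    rw [inClass, ← Nat.modEq_and_modEq_iff_modEq_mul hkM.symm]
    refine ⟨fun e => e.1.trans hcM, fun e => ⟨Nat.ModEq.trans e hcM.symm, ?_⟩⟩
    exact ((Nat.modEq_iff_dvd' hp.one_le).2 hr.1).symm.trans hck.symm
  rw [he] at h2
  obtain ⟨n, hn⟩ : ∃ n : ℝ, n = ((k * (M * k).totient : ℕ) : ℝ) := ⟨_, rfl⟩
  have hn1 : 1 ≤ n := hn ▸ Nat.one_le_cast.2
    (Nat.mul_pos (NeZero.pos k) (Nat.totient_pos.2 (NeZero.pos (M * k))))
  have hs : FA.ChebError.share (fixClass ζ α c) = 1 / n := by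
    rw [FA.ChebError.share, hone, IsGalois.card_aut_eq_finrank, hdeg, hn, Nat.cast_one]
  have hmain : 1 / (M.totient : ℝ) * logInt N / ((k * k.totient : ℕ) : ℝ) = 1 / n * logInt N := by
    rw [hn, Nat.totient_mul hkM.symm]
    push_cast
    field_simp
  rw [hmain]
  rw [hs] at h1
  have hlk : 0 ≤ Real.log k := Real.log_natCast_nonneg k
  have hlm : Real.log ((M * k : ℕ) : ℝ) = Real.log M + Real.log k := by
    rw [Nat.cast_mul, Real.log_mul (Nat.cast_ne_zero.2 (NeZero.ne M))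
      (Nat.cast_ne_zero.2 (NeZero.ne k))]
  rw [← hn, hlm] at hdisc
  rw [hlm] at h2
  obtain ⟨R, hR⟩ : ∃ R, R = √(N : ℝ) * Real.log N ^ 4 := ⟨_, rfl⟩
  rw [← hR] at h1 ⊢
  have hl : 0.69 ≤ Real.log N :=
    le_trans (by linarith [Real.log_two_gt_d9]) (Real.log_le_log two_pos hN2)
  have hR1 : (1 : ℝ) / 5 ≤ R := by
    rw [hR]
    have : (0.69 : ℝ) ^ 4 ≤ Real.log N ^ 4 := pow_le_pow_left₀ (by norm_num) hl 4
    nlinarith [Real.one_le_sqrt.2 (show (1 : ℝ) ≤ N by linarith)]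
  have hB1 : 1 + Real.log M + Real.log k + Real.log |(a : ℝ)| ≤ B * (1 + Real.log k) := by
    rw [hB]; nlinarith
  have h3 : A * (1 / n) * fieldSize (MixedField a (M * k) k) * R ≤
      2 * A * (B * (1 + Real.log k)) * R := by
    refine mul_le_mul_of_nonneg_right ?_ (by linarith)
    rw [fieldSize, hdeg, ← hn, show A * (1 / n) * (1 + Real.log
      ((discr (MixedField a (M * k) k)).natAbs : ℝ) + n) = A * ((1 + Real.log
      ((discr (MixedField a (M * k) k)).natAbs : ℝ) + n) / n) by ring,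
      show 2 * A * (B * (1 + Real.log k)) = A * (2 * (B * (1 + Real.log k))) by ring]
    refine mul_le_mul_of_nonneg_left ((div_le_iff₀ (by linarith)).2 ?_) hA
    nlinarith
  have h4 : 2 * (Real.log M + Real.log k + Real.log |(a : ℝ)|) ≤
      16 * (B * (1 + Real.log k)) * R := by nlinarith
  rw [abs_le] at h1 h2 ⊢
  simp only [logInt] at h1 h2 ⊢
  constructor <;> linarith

end FA.ArtinAll

end
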