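import Fermat.Agent.ArtinHooley.Main
import Fermat.Agent.ArtinAllBases.Count

/-!
# Artin's conjecture in a class

On the hypothesis the primes `p ≡ b (mod M)` of a good class with the primitive root `a` number
`A / (φ M ∏_{q ∣ M} (1 - 1/(q (q - 1)))) x / log x` asymptotically.
-/

set_option autoImplicit false
set_option linter.style.haveILetI false

noncomputable section

open Finset Filter
open FA.ArtinHooley
open scoped Classical Topology

namespace FA.ArtinAll

variable {a : ℤ} {M b : ℕ}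

/-- No condition at the prime divisors of `M` holds in the class. -/
theorem not_rootCond (h : GoodClass a M b) {p : ℕ} (hp : p.Prime) (hpb : p % M = b % M) {q : ℕ}
    (hq : q.Prime) (hqM : q ∣ M) : ¬ RootCond a q p := fun hr => by
  haveI : Fact p.Prime := ⟨hp⟩
  rcases eq_or_ne q 2 with rfl | hq2
  · have hcop : p.Coprime M := (Nat.ModEq.gcd_eq hpb).trans h.coprime
    have hodd : Odd p := odd_of_coprime ((dvd_mul_right 4 _).trans h.four_dvd) hcop
    have hns := ZMod.nonsquare_of_jacobiSym_eq_neg_one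
      ((jacobiSym_eq_of_modEq h.four_dvd hodd h.odd hpb).trans h.symbol)
    have ha : (a : ZMod p) ≠ 0 := fun e =>
      not_dvd_of_rootCond hp hr ((ZMod.intCast_zmod_eq_zero_iff_dvd a p).1 e)
    refine hns ((ZMod.euler_criterion p ha).2 ?_)
    rw [show p / 2 = (p - 1) / 2 by obtain ⟨i, hi⟩ := hodd; omega]
    exact ((rootCond_iff 2).1 hr).2
  · refine h.not_one q hq hq2 hqM ?_
    have h1 : p % q = 1 % q := ((Nat.modEq_iff_dvd' hp.one_le).2 hr.1).symm
    have h2 : p % q = b % q := Nat.ModEq.of_dvd hqM hpb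
    rw [← h2, h1, Nat.mod_eq_of_lt hq.one_lt]

/-- The sieve by all primes is the sieve by those prime to `M`. -/
theorem sieveSet_filter_eq (h : GoodClass a M b) (z N : ℕ) :
    (sieveSet a ((Icc 1 z).filter Nat.Prime) N).filter (inClass M b) =
      (sieveSet a (((Icc 1 z).filter Nat.Prime).filter fun q => ¬ q ∣ M) N).filter
        (inClass M b) := by
  ext p
  simp only [sieveSet, mem_filter]
  constructor
  · rintro ⟨⟨h1, h2, h3, h4⟩, h5⟩
    exact ⟨⟨h1, h2, h3, fun q hq => h4 q hq.1⟩, h5⟩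
  · rintro ⟨⟨h1, h2, h3, h4⟩, h5⟩
    refine ⟨⟨h1, h2, h3, fun q hq => ?_⟩, h5⟩
    by_cases hqM : q ∣ M
    · exact not_rootCond h h2 h5 hq.2 hqM
    · exact h4 q ⟨hq, hqM⟩

/-- The partial products prime to `M`. -/
theorem tendsto_artinPartial_coprime (hM : M ≠ 0) :
    Tendsto (fun z : ℕ => ∏ q ∈ ((Icc 1 z).filter Nat.Prime).filter (fun q => ¬ q ∣ M),
      artinFactor q) atTop (𝓝 (artinConst / ∏ q ∈ M.primeFactors, artinFactor q)) := by
  refine (tendsto_artinPartial.div_const _).congr' ?_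
  filter_upwards [eventually_ge_atTop M] with z hz
  have he : ((Icc 1 z).filter Nat.Prime).filter (fun q => q ∣ M) = M.primeFactors := by
    ext q
    simp only [mem_filter, mem_Icc, Nat.mem_primeFactors]
    exact ⟨fun e => ⟨e.1.2, e.2, hM⟩, fun e => ⟨⟨⟨e.1.one_le,
      (Nat.le_of_dvd (Nat.pos_of_ne_zero hM) e.2.1).trans hz⟩, e.1⟩, e.2.1⟩⟩
  have h0 : ∏ q ∈ M.primeFactors, artinFactor q ≠ 0 :=
    prod_ne_zero_iff.2 fun q _ => by linarith [(half_le_artinFactor q).1]
  rw [← prod_filter_mul_prod_filter_not ((Icc 1 z).filter Nat.Prime) (fun q => q ∣ M), he,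
    mul_div_cancel_left₀ _ h0]

/-- The density in a good class. -/
def classConst (M : ℕ) : ℝ :=
  1 / (M.totient : ℝ) * (artinConst / ∏ q ∈ M.primeFactors, artinFactor q)

theorem classConst_pos (hM : M ≠ 0) : 0 < classConst M :=
  mul_pos (one_div_pos.2 (Nat.cast_pos.2 (Nat.totient_pos.2 (Nat.pos_of_ne_zero hM))))
    (div_pos artinConst_pos (prod_pos fun q _ => by linarith [(half_le_artinFactor q).1]))

theorem classConst_eq (M : ℕ) : classConst M = artinConst /
    ((M.totient : ℝ) * ∏ q ∈ M.primeFactors, (1 - 1 / ((q : ℝ) * (q - 1)))) := by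
  rw [classConst, prod_congr rfl fun q hq => show artinFactor q = 1 - 1 / ((q : ℝ) * (q - 1)) by
    rw [artinFactor, if_pos (Nat.prime_of_mem_primeFactors hq)]]
  ring

/-- **Artin's conjecture in a good class.** -/
theorem tendsto_class (h : GoodClass a M b) (hRH : MixedRH a) :
    Tendsto (fun N : ℕ => (((primRootSet a N).filter (inClass M b)).card : ℝ) *
      Real.log N / N) atTop (𝓝 (classConst M)) := by
  obtain ⟨B, hB, hcount⟩ := exists_condCount_le h hRH
  have hcop : ∀ q : ℕ, q.Prime → ¬ q ∣ M → q.Coprime M := fun q hq hqM =>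
    hq.coprime_iff_not_dvd.2 hqM
  have hw : 1 / (M.totient : ℝ) ≤ 1 := by
    rw [div_le_one (Nat.cast_pos.2 (Nat.totient_pos.2 (Nat.pos_of_ne_zero h.ne_zero)))]
    exact Nat.one_le_cast.2 (Nat.totient_pos.2 (Nat.pos_of_ne_zero h.ne_zero))
  obtain ⟨C', -, hrange⟩ := exists_ranges_le_of_count h.two_le_natAbs hB hw (z₀ := M)
    fun q hq hqM N hN => (abs_le.1 (hcount q hq.squarefree
      (hcop q hq fun e => (Nat.le_of_dvd (Nat.pos_of_ne_zero h.ne_zero) e).not_gt hqM) N hN)).2
  refine tendsto_card_filter_primRootSet (z₀ := M) hB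
    ((tendsto_artinPartial_coprime h.ne_zero).const_mul (1 / (M.totient : ℝ)))
    (fun N z hN hz => ?_) hrange
  rw [sieveSet_filter_eq h, mul_left_comm, ← mul_assoc]
  refine abs_sieve_sub_le hB (filter_subset _ _) hz fun T hT => ?_
  have hTq : ∀ q ∈ T, q.Prime ∧ ¬ q ∣ M := fun q hq =>
    ⟨(mem_filter.1 (mem_filter.1 (hT hq)).1).2, (mem_filter.1 (hT hq)).2⟩
  exact hcount _ (squarefree_prod fun q hq => (hTq q hq).1)
    (Nat.Coprime.prod_left fun q hq => hcop q (hTq q hq).1 (hTq q hq).2) N hN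

/-- A positive proportion of the primes, for `a ≠ -1` a nonsquare. -/
theorem eventually_card_ge (hsq : ¬ IsSquare a) (h1 : a ≠ -1) (hRH : MixedRH a) :
    ∃ c : ℝ, 0 < c ∧ ∀ᶠ N : ℕ in atTop, c * (N / Real.log N) ≤ (primRootSet a N).card := by
  obtain ⟨b, hb⟩ := exists_goodClass hsq h1
  refine ⟨classConst (4 * a.natAbs.factorial) / 2,
    half_pos (classConst_pos hb.ne_zero), ?_⟩
  filter_upwards [eventually_ge_atTop 2, (tendsto_class hb hRH).eventually_const_le
    (half_lt_self (classConst_pos hb.ne_zero))] with N hN h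
  have hN0 : (0 : ℝ) < N := Nat.cast_pos.2 (by omega)
  have hl : 0 < Real.log N := Real.log_pos (by exact_mod_cast hN)
  refine le_trans ?_ (Nat.cast_le.2 (card_filter_le _
    (inClass (4 * a.natAbs.factorial) b)))
  rw [← le_div_iff₀ (div_pos hN0 hl), div_div_eq_mul_div]
  exact h

theorem infinite_primRoot (hsq : ¬ IsSquare a) (h1 : a ≠ -1) (hRH : MixedRH a) :
    {p : ℕ | p.Prime ∧ orderOf (a : ZMod p) = p - 1}.Infinite := by
  obtain ⟨b, hb⟩ := exists_goodClass hsq h1
  exact infinite_of_tendsto (classConst_pos hb.ne_zero).ne' (tendsto_class hb hRH)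

/-- Squares and `-1` are primitive roots modulo at most finitely many primes. -/
theorem finite_primRoot (h : IsSquare a ∨ a = -1) :
    {p : ℕ | p.Prime ∧ orderOf (a : ZMod p) = p - 1}.Finite := by
  refine (Set.finite_le_nat 3).subset fun p hp => ?_
  obtain ⟨hp, hord⟩ := hp
  haveI : Fact p.Prime := ⟨hp⟩
  show p ≤ 3
  by_contra hlt
  obtain ⟨j, hj⟩ := hp.odd_of_ne_two (by omega)
  rcases h with ⟨z, rfl⟩ | rfl
  · have hz : (z : ZMod p) ≠ 0 := fun e => by
      rw [Int.cast_mul, e, zero_mul, orderOf_zero] at hord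
      omega
    have h2 := orderOf_dvd_of_pow_eq_one
      (show ((z * z : ℤ) : ZMod p) ^ j = 1 by
        rw [Int.cast_mul, ← pow_two, ← pow_mul, show 2 * j = p - 1 by omega,
          ZMod.pow_card_sub_one_eq_one hz])
    rw [hord] at h2
    have := Nat.le_of_dvd (by omega) h2
    omega
  · have h2 := orderOf_dvd_of_pow_eq_one (show ((-1 : ℤ) : ZMod p) ^ 2 = 1 by simp)
    rw [hord] at h2
    have := Nat.le_of_dvd two_pos h2
    omega

end FA.ArtinAll

end
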